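import Fermat.Agent.S48.CH.Defs
import Fermat.Agent.S14.ClassZeta.Main
import Fermat.Agent.Lib.WeakChebotarev.DegOne
import Fermat.Agent.Lib.WeakChebotarev.Count
import Fermat.Agent.Lib.WeakChebotarev.NumberFieldOf
import Fermat.Agent.Lib.WeakChebotarev.Qbar
import Fermat.Agent.S48.GalNodes

/-!
# S48 / block CH : SKELETON (statements only; every `sorry` is a task, target file in the comment).
NEVER import this file from proof files.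

Goal: the SYMMETRISED Chebotarev density theorem (`chebotarev_sym_fun`, `card_le_of_frob_notMem`).
-/

set_option autoImplicit false

namespace Fermat.Agent.S48.CH

open NumberField Ideal Filter Topology
open scoped nonZeroDivisors Pointwise
open Fermat.Agent.S14.Analytic (term zetaSum)
open Fermat.Agent.Lib.WeakChebotarev (degOneCount degOneSum conjCount)

/-! ################ ANALYTIC PART ################ -/

section analytic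

variable (F : Type*) [Field F] [NumberField F] {m : ℕ} (χ : DirichletCharacter ℂ m)

/-! ## N1 : file CH/NormCongr.lean -/

theorem norm_add_congr (m : ℕ) (x h : 𝓞 F) (hh : h ∈ Ideal.span {(m : 𝓞 F)}) :
    ((Algebra.norm ℤ (x + h) : ℤ) : ZMod m) = ((Algebra.norm ℤ x : ℤ) : ZMod m) := by
  sorry

theorem norm_one_add_pos (t : F) (ht : ∀ v : InfinitePlace F, v t ≤ 1 / 4) :
    0 < Algebra.norm ℚ (1 + t) := by
  sorry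

theorem X_add_eq (x h : 𝓞 F) (hx : x ≠ 0) (hh : h ∈ Ideal.span {(m : 𝓞 F)})
    (hsmall : ∀ v : InfinitePlace F, v (h : F) ≤ 1 / 4 * v (x : F)) :
    X F χ (x + h) = X F χ x := by
  sorry

theorem X_eq_tw (x : 𝓞 F) (I : (Ideal (𝓞 F))⁰) (hI : (I : Ideal (𝓞 F)) = Ideal.span {x}) :
    X F χ x = tw F χ I := by
  sorry

theorem norm_X_le (x : 𝓞 F) : ‖X F χ x‖ ≤ 1 := by
  sorry

/-! ## N2 : file CH/TwRatio.lean -/

theorem tw_ratio_estimate (h : 𝓞 F) (hh : h ∈ Ideal.span {(m : 𝓞 F)}) :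
    ∃ A : ℝ, 0 ≤ A ∧ ∀ s : ℝ, 1 ≤ s → s ≤ 2 → ∀ β : 𝓞 F,
      ‖X F χ (β + h) * (S14.ClassZeta.F F s (β + h) : ℂ) - X F χ β * (S14.ClassZeta.F F s β : ℂ)‖
        ≤ A * (S14.ClassZeta.G F β + S14.ClassZeta.G F (β + h)) := by
  sorry

/-! ## N3 : file CH/TwUnfold.lean -/

theorem hasSum_tw_unfold (J : (Ideal (𝓞 F))⁰) {s : ℝ} (hs : 1 < s) :
    HasSum (fun β : (J : Ideal (𝓞 F)) => X F χ β * (S14.ClassZeta.F F s β : ℂ))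
      ((Units.torsionOrder F : ℂ) * prinSumTw F χ J s) := by
  sorry

/-! ## N4 : file CH/TwCoset.lean -/

theorem tw_coset_bound (J : (Ideal (𝓞 F))⁰)
    (hJ : IsCoprime (J : Ideal (𝓞 F)) (Ideal.span {(m : 𝓞 F)})) :
    ∃ B : ℝ, ∀ s : ℝ, 1 < s → s ≤ 2 →
      ‖∑' x : 𝓞 F, X F χ x * (S14.ClassZeta.F F s x : ℂ) -
        (absNorm (J : Ideal (𝓞 F)) : ℂ) *
          ∑' β : (J : Ideal (𝓞 F)), X F χ β * (S14.ClassZeta.F F s β : ℂ)‖ ≤ B := by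
  sorry

/-! ## N5 : file CH/Coprime.lean -/

theorem isCoprime_of_absNorm_coprime (J : Ideal (𝓞 F)) (m : ℕ) (h : (absNorm J).Coprime m) :
    IsCoprime J (Ideal.span {(m : 𝓞 F)}) := by
  sorry

theorem exists_mk0_eq_absNorm_coprime (C : ClassGroup (𝓞 F)) (m : ℕ) (hm : m ≠ 0) :
    ∃ J : (Ideal (𝓞 F))⁰, ClassGroup.mk0 J = C ∧ (absNorm (J : Ideal (𝓞 F))).Coprime m := by
  sorry

/-! ## N6 : file CH/LBound.lean -/

theorem lSum_eq_sum_classSumTw {s : ℝ} (hs : 1 < s) :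
    lSum F χ s = ∑ C : ClassGroup (𝓞 F), classSumTw F χ C s := by
  sorry

theorem tw_mul_classSumTw (C : ClassGroup (𝓞 F)) (J : (Ideal (𝓞 F))⁰)
    (hJ : ClassGroup.mk0 J = C⁻¹) (s : ℝ) :
    tw F χ J * classSumTw F χ C s =
      (((absNorm (J : Ideal (𝓞 F)) : ℝ) ^ s : ℝ) : ℂ) * prinSumTw F χ J s := by
  sorry

/-- the key comparison: `χ(N J) L_{[J]⁻¹}(s) = T_O(s)/w + O(1)` for every `J` prime to `m`. -/
theorem class_piece (J : (Ideal (𝓞 F))⁰) (hJ : (absNorm (J : Ideal (𝓞 F))).Coprime m) :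
    ∃ B : ℝ, ∀ s : ℝ, 1 < s → s ≤ 2 →
      ‖tw F χ J * classSumTw F χ (ClassGroup.mk0 J)⁻¹ s -
        (Units.torsionOrder F : ℂ)⁻¹ * ∑' x : 𝓞 F, X F χ x * (S14.ClassZeta.F F s x : ℂ)‖ ≤ B := by
  sorry

/-- **the twisted L-series is bounded near `s = 1`** -/
theorem lSum_bounded [NeZero m] (I₀ : (Ideal (𝓞 F))⁰) (h0 : tw F χ I₀ ≠ 0) (h1 : tw F χ I₀ ≠ 1) :
    ∃ B : ℝ, ∀ s : ℝ, 1 < s → s ≤ 2 → ‖lSum F χ s‖ ≤ B := by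
  sorry

/-! ## N7 : file CH/EulerLogTw.lean -/

theorem exp_re_primeSumTw_le {s : ℝ} (hs : 1 < s) :
    Real.exp (primeSumTw F χ s).re ≤ ‖lSum F χ s‖ * Real.exp (zetaSum F 2) := by
  sorry

/-! ## N8 : file CH/DegOneTw.lean -/

theorem primeSumTw_sub_degOneSumTw :
    ∃ C : ℝ, ∀ s : ℝ, 1 < s → ‖primeSumTw F χ s - degOneSumTw F χ s‖ ≤ C := by
  sorry

/-- THE ANALYTIC INPUT -/
theorem re_degOneSumTw_le [NeZero m] (I₀ : (Ideal (𝓞 F))⁰) (h0 : tw F χ I₀ ≠ 0)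
    (h1 : tw F χ I₀ ≠ 1) :
    ∃ C : ℝ, ∀ s : ℝ, 1 < s → s ≤ 2 → (degOneSumTw F χ s).re ≤ C := by
  sorry

end analytic

/-! ################ ALGEBRAIC PART ################ -/

section algebraic

/-! ## N9 : file CH/Frob.lean -/

theorem exists_frob (L : Type*) [Field L] [NumberField L] [IsGalois ℚ L] (ℓ : ℕ) (hℓ : ℓ.Prime)
    (Q : Ideal (𝓞 L)) [Q.IsPrime] (hQ : (ℓ : 𝓞 L) ∈ Q) :
    ∃ φ : L ≃ₐ[ℚ] L, ∀ x : 𝓞 L, φ • x - x ^ ℓ ∈ Q := by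
  sorry

theorem frob_conj (L : Type*) [Field L] [NumberField L] [IsGalois ℚ L] (ℓ : ℕ) (hℓ : ℓ.Prime)
    (hunr : ¬ (ℓ : ℤ) ∣ discr L) (Q Q' : Ideal (𝓞 L)) [Q.IsPrime] [Q'.IsPrime]
    (hQ : (ℓ : 𝓞 L) ∈ Q) (hQ' : (ℓ : 𝓞 L) ∈ Q') (φ φ' : L ≃ₐ[ℚ] L)
    (hφ : ∀ x : 𝓞 L, φ • x - x ^ ℓ ∈ Q) (hφ' : ∀ x : 𝓞 L, φ' • x - x ^ ℓ ∈ Q') :
    ∃ g : L ≃ₐ[ℚ] L, g * φ * g⁻¹ = φ' := by
  sorry

theorem autToPow_frob (L : Type*) [Field L] [NumberField L] {q : ℕ} [NeZero q] {ζ : L}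
    (hζ : IsPrimitiveRoot ζ q) (ℓ : ℕ) (hℓ : ℓ.Prime) (hℓq : ¬ ℓ ∣ q)
    (Q : Ideal (𝓞 L)) [Q.IsPrime] (hQ : (ℓ : 𝓞 L) ∈ Q) (φ : L ≃ₐ[ℚ] L)
    (hφ : ∀ x : 𝓞 L, φ • x - x ^ ℓ ∈ Q) :
    ((hζ.autToPow ℚ φ : (ZMod q)ˣ) : ZMod q) = (ℓ : ZMod q) := by
  sorry

/-! ## N10 : file CH/Crossing.lean -/

theorem isGalois_cyclotomicField (L : Type*) [Field L] [NumberField L] [IsGalois ℚ L] (q : ℕ)
    [NeZero q] : IsGalois ℚ (CyclotomicField q L) := by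
  sorry

theorem eq_one_of_res_of_zeta (L : Type*) [Field L] [NumberField L] [IsGalois ℚ L] (q : ℕ)
    [NeZero q] (g : CyclotomicField q L ≃ₐ[ℚ] CyclotomicField q L)
    (hres : AlgEquiv.restrictNormalHom L g = 1)
    (hz : g (IsCyclotomicExtension.zeta q L (CyclotomicField q L)) =
      IsCyclotomicExtension.zeta q L (CyclotomicField q L)) : g = 1 := by
  sorry

theorem res_frob (L M : Type*) [Field L] [NumberField L] [IsGalois ℚ L] [Field M] [NumberField M]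
    [Algebra L M] (ℓ : ℕ) (Q : Ideal (𝓞 M)) (Φ : M ≃ₐ[ℚ] M)
    (hΦ : ∀ x : 𝓞 M, Φ • x - x ^ ℓ ∈ Q) (x : 𝓞 L) :
    (AlgEquiv.restrictNormalHom L Φ) • x - x ^ ℓ ∈ Q.comap (algebraMap (𝓞 L) (𝓞 M)) := by
  sorry

/-! ## N11 : file CH/BadCount.lean -/

theorem card_bad_le (q : ℕ) [Fact q.Prime] (n k : ℕ) (hn : 0 < n) (hq : n ^ k ∣ q - 1) :
    (Nat.card {τ : (ZMod q)ˣ // ¬ n ∣ orderOf τ} : ℝ) ≤ (n : ℝ) / 2 ^ k * (q - 1 : ℕ) := by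
  sorry

end algebraic

/-! ################ ABSTRACT PART ################ -/

section abstract

/-! ## N12 : file CH/AbsFourier.lean -/

theorem abstract_cyc {G : Type*} [Group G] [Finite G] {q : ℕ} [NeZero q] (cyc : G →* (ZMod q)ˣ)
    {ι : Type*} (Φ : ι → G) (w : ℝ → ι → ℝ) (lam : ℝ → ℝ) (l : Filter ℝ) [l.NeBot]
    (hw : ∀ᶠ s in l, (∀ i, 0 ≤ w s i ∧ w s i ≤ 1) ∧ Summable (w s))
    (hlam : Tendsto lam l atTop)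
    (hH : ∀ H : Subgroup G, ∃ C : ℝ, ∀ᶠ s in l,
      |∑' i, (conjCount (Subgroup.zpowers (Φ i)) H : ℝ) * w s i - Nat.card H * lam s| ≤ C)
    (hχ : ∀ (H : Subgroup G) (χ : DirichletCharacter ℂ q),
      (∃ i, 0 < conjCount (Subgroup.zpowers (Φ i)) H ∧ χ ((cyc (Φ i) : (ZMod q)ˣ) : ZMod q) ≠ 1) →
      ∃ C : ℝ, ∀ᶠ s in l,
        (∑' i, (conjCount (Subgroup.zpowers (Φ i)) H : ℂ) * χ ((cyc (Φ i) : (ZMod q)ˣ) : ZMod q) *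
          (w s i : ℂ)).re ≤ C)
    (h : G) (hinj : ∀ x ∈ Subgroup.zpowers h, cyc x = 1 → x = 1) :
    ∃ C : ℝ, ∀ᶠ s in l, |delta Φ w s h + delta Φ w s h⁻¹ - 2 * lam s| ≤ C := by
  sorry

/-! ## N13 : file CH/AbsDensity.lean -/

theorem abstract_sym_density {G : Type*} [Group G] [Fintype G] {ι : Type*} (Φ : ι → G)
    (w : ℝ → ι → ℝ) (lam : ℝ → ℝ) (l : Filter ℝ)
    (hw : ∀ᶠ s in l, (∀ i, 0 ≤ w s i) ∧ Summable (w s))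
    (hlam : ∀ᶠ s in l, 0 ≤ lam s)
    (htot : ∃ C : ℝ, ∀ᶠ s in l, |∑' i, w s i - lam s| ≤ C)
    (Good : Set G)
    (hgood : ∀ h ∈ Good, ∃ C : ℝ, ∀ᶠ s in l, |delta Φ w s h + delta Φ w s h⁻¹ - 2 * lam s| ≤ C)
    (U : G → ℝ) (hUc : ∀ g x, U (g * x * g⁻¹) = U x) (hUi : ∀ x, U x⁻¹ = U x)
    (M : ℝ) (hM : ∀ x, |U x| ≤ M) :
    ∃ C : ℝ, ∀ᶠ s in l,
      |∑' i, U (Φ i) * w s i - (∑ x, U x) / Nat.card G * lam s| ≤
        M * (2 * Nat.card (Goodᶜ : Set G) / Nat.card G) * lam s + C := by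
  sorry

end abstract

/-! ################ ASSEMBLY ################ -/

section assembly

/-! ## N14 : file CH/Concrete.lean -/

section concrete

variable (M : Type*) [Field M] [NumberField M] [IsGalois ℚ M]
  (T : Set Nat.Primes) (hT : T.Finite) (hTd : ∀ ℓ : Nat.Primes, ((ℓ : ℕ) : ℤ) ∣ discr M → ℓ ∈ T)
  (Φ : {ℓ : Nat.Primes // ℓ ∉ T} → (M ≃ₐ[ℚ] M))
  (hΦ : ∀ i, ∃ Q : Ideal (𝓞 M), Q.IsPrime ∧ ((i.1 : ℕ) : 𝓞 M) ∈ Q ∧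
    ∀ x : 𝓞 M, Φ i • x - x ^ (i.1 : ℕ) ∈ Q)

include hT hTd hΦ in
theorem concrete_hH (H : Subgroup (M ≃ₐ[ℚ] M)) : ∃ C : ℝ, ∀ᶠ s in 𝓝[>] (1 : ℝ),
    |∑' i, (conjCount (Subgroup.zpowers (Φ i)) H : ℝ) * ((i.1 : ℕ) : ℝ) ^ (-s) -
      Nat.card H * Real.log (1 / (s - 1))| ≤ C := by
  sorry

include hT hTd hΦ in
theorem concrete_hχ {q : ℕ} [NeZero q] {ζ : M} (hζ : IsPrimitiveRoot ζ q)
    (hTq : ∀ ℓ : Nat.Primes, (ℓ : ℕ) ∣ q → ℓ ∈ T)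
    (H : Subgroup (M ≃ₐ[ℚ] M)) (χ : DirichletCharacter ℂ q)
    (hex : ∃ i, 0 < conjCount (Subgroup.zpowers (Φ i)) H ∧
      χ ((hζ.autToPow ℚ (Φ i) : (ZMod q)ˣ) : ZMod q) ≠ 1) :
    ∃ C : ℝ, ∀ᶠ s in 𝓝[>] (1 : ℝ),
      (∑' i, (conjCount (Subgroup.zpowers (Φ i)) H : ℂ) *
        χ ((hζ.autToPow ℚ (Φ i) : (ZMod q)ˣ) : ZMod q) *
          ((((i.1 : ℕ) : ℝ) ^ (-s) : ℝ) : ℂ)).re ≤ C := by
  sorry

end concrete

/-! ## N15 : file CH/Main.lean -/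

/-- **Symmetrised Chebotarev density theorem**, number field form. -/
theorem chebotarev_sym_fun (L : Type*) [Field L] [NumberField L] [IsGalois ℚ L]
    (u : (L ≃ₐ[ℚ] L) → ℝ) (huc : ∀ g x, u (g * x * g⁻¹) = u x) (hui : ∀ x, u x⁻¹ = u x)
    (v : Nat.Primes → ℝ) (T : Finset ℕ)
    (hv : ∀ ℓ : Nat.Primes, (ℓ : ℕ) ∉ T → ∀ (Q : Ideal (𝓞 L)) [Q.IsPrime], ((ℓ : ℕ) : 𝓞 L) ∈ Q →
      ∀ φ : L ≃ₐ[ℚ] L, (∀ x : 𝓞 L, φ • x - x ^ (ℓ : ℕ) ∈ Q) → v ℓ = u φ)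
    {ε : ℝ} (hε : 0 < ε) :
    ∀ᶠ s in 𝓝[>] (1 : ℝ),
      |∑' ℓ : Nat.Primes, v ℓ * ((ℓ : ℕ) : ℝ) ^ (-s) -
        (∑ x, u x) / Nat.card (L ≃ₐ[ℚ] L) * Real.log (1 / (s - 1))| ≤
        ε * Real.log (1 / (s - 1)) := by
  sorry

/-! ## N16 : file CH/Qbar.lean (consumer forms) -/

local notation "Qbar" => AlgebraicClosure ℚ
local notation "GQ" => (AlgebraicClosure ℚ ≃ₐ[ℚ] AlgebraicClosure ℚ)

/-- consumer form 1: symmetric class functions. -/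
theorem chebotarev_sym_Qbar (L : IntermediateField ℚ Qbar) [FiniteDimensional ℚ L] [Normal ℚ L]
    (u : (L ≃ₐ[ℚ] L) → ℝ) (huc : ∀ g x, u (g * x * g⁻¹) = u x) (hui : ∀ x, u x⁻¹ = u x)
    (v : Nat.Primes → ℝ) (T : Finset ℕ)
    (hv : ∀ ℓ : Nat.Primes, (ℓ : ℕ) ∉ T → ∀ A : ValuationSubring Qbar, A.LiesOverPrime ℓ →
      ∀ φ : GQ, A.IsFrobeniusAt φ ℓ → v ℓ = u (AlgEquiv.restrictNormalHom L φ))
    {ε : ℝ} (hε : 0 < ε) :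
    ∀ᶠ s in 𝓝[>] (1 : ℝ),
      |∑' ℓ : Nat.Primes, v ℓ * ((ℓ : ℕ) : ℝ) ^ (-s) -
        (∑ x, u x) / Nat.card (L ≃ₐ[ℚ] L) * Real.log (1 / (s - 1))| ≤
        ε * Real.log (1 / (s - 1)) := by
  sorry

/-- consumer form 2: a symmetric conjugation-stable set `C` all of whose Frobenius primes lie in a
set `X` of upper Dirichlet density `≤ η` has `|C| ≤ η |G|`. -/
theorem card_le_of_frob_notMem (L : IntermediateField ℚ Qbar) [FiniteDimensional ℚ L]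
    [Normal ℚ L] (C : Set (L ≃ₐ[ℚ] L)) (hconj : ∀ g, ∀ c ∈ C, g * c * g⁻¹ ∈ C)
    (hinv : ∀ c ∈ C, c⁻¹ ∈ C) (X : Set Nat.Primes) (η : ℝ)
    (hX : ∃ᶠ s in 𝓝[>] (1 : ℝ),
      ∑' ℓ : Nat.Primes, X.indicator (fun ℓ : Nat.Primes => ((ℓ : ℕ) : ℝ) ^ (-s)) ℓ ≤
        η * Real.log (1 / (s - 1)))
    (T : Finset ℕ)
    (hsub : ∀ ℓ : Nat.Primes, (ℓ : ℕ) ∉ T → ℓ ∉ X → ∀ A : ValuationSubring Qbar,
      A.LiesOverPrime ℓ → ∀ φ : GQ, A.IsFrobeniusAt φ ℓ → AlgEquiv.restrictNormalHom L φ ∉ C) :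
    (Nat.card C : ℝ) ≤ η * Nat.card (L ≃ₐ[ℚ] L) := by
  sorry

/-! ## N17 : file CH/Node.lean (the node `ChebotarevSym` of `Fermat/Agent/S48/GalNodes.lean`) -/

theorem chebotarevSym : S48.ChebotarevSym := by
  sorry

end assembly

end Fermat.Agent.S48.CH
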